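/-
GATE-M / S41-C-ASM (helper98): Ihara's lemma modulo `p` for `Λ_N = parabolicHoms ℤ Γ0(N) ℤ`,
assembled from
* (C1) helper65 `GM/Amalgam`: gluing along `Γ0(N) *_{Γ0(Nq)} δ⁻¹Γ0(N)δ = Γ0(N)[1/q]` and the
  elementary matrices,
* (C2) the congruence subgroup property of `Γ0(N)[1/q]`, here the HYPOTHESIS `CSPStmt`,
* (C3) helper81 `GM/EisClass`: homs killing `Γ1(N)` are Eisenstein for `cohT`.

Output: if `res x + res_δ y ≡ 0 mod p` on `Γ0(Nq)` then `(T_ℓ - (ℓ+1)) x` and `(T_ℓ - (ℓ+1)) y`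
are divisible by `p`, for every prime `ℓ ∤ N`.  NEW file; imports only.
-/
import Fermat.Agent.GM.Amalgam.Elementary
import Fermat.Agent.GM.EisClass.CohTEis
import Fermat.Prelude.Def_ModularCurve_PeriodMap

set_option autoImplicit false

namespace Fermat.Agent.GM.Ihara

open Matrix Matrix.SpecialLinearGroup CongruenceSubgroup
open scoped MatrixGroups
open Fermat.Agent.GM.Amalgam Fermat.Agent.GM.EisClass Fermat.Agent.S16_helper49
open ModularCurve.Period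

/-- **The congruence subgroup property of `Γ0(N)[1/q]`** (Mennicke, Serre), for homomorphisms into
the commutative group `C`: a homomorphism killing the elementary matrices `(1 t; 0 1)`,
`t ∈ ℤ[1/q]`, and `(1 0; t 1)`, `t ∈ N ℤ[1/q]`, kills every matrix with `d ≡ 1 mod N`. -/
def CSPStmt (N q : ℕ) [Fact q.Prime] (C : Type*) [CommGroup C] : Prop :=
  ∀ Φ : ↥(DeltaQ N q) →* C,
    (∀ (t : ℚ) (ht : t ∈ Zq q), Φ ⟨upperQ t, upperQ_mem_DeltaQ ht⟩ = 1) →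
    (∀ (t : ℚ) (ht : t ∈ NZq q N), Φ ⟨lowerQ t, lowerQ_mem_DeltaQ ht⟩ = 1) →
    ∀ h : ↥(DeltaQ N q), (h : SLQ) 1 1 - 1 ∈ NZq q N → Φ h = 1

section div

variable {Γ : Subgroup SL(2, ℤ)}

/-- A parabolic homomorphism to `ℤ` all of whose values are divisible by `p ≠ 0` is `p` times a
parabolic homomorphism: `Λ / pΛ` embeds in `Hom(Γ, ℤ/p)`. -/
theorem exists_parabolic_eq_smul {p : ℕ} (hp : p ≠ 0) (φ : Additive Γ →+ ℤ)
    (hφ : φ ∈ parabolicHoms ℤ Γ ℤ) (hdiv : ∀ g, (p : ℤ) ∣ φ g) :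
    ∃ z : Additive Γ →+ ℤ, z ∈ parabolicHoms ℤ Γ ℤ ∧ φ = (p : ℤ) • z := by
  have hp' : (p : ℤ) ≠ 0 := by exact_mod_cast hp
  let z : Additive Γ →+ ℤ :=
    { toFun := fun g => φ g / (p : ℤ)
      map_zero' := by simp
      map_add' := by
        intro g h
        rw [map_add, Int.add_ediv_of_dvd_left (hdiv g)] }
  have hz : ∀ g, φ g = (p : ℤ) * z g := fun g => (Int.mul_ediv_cancel' (hdiv g)).symm
  refine ⟨z, ?_, ?_⟩
  · intro γ hγ
    have h1 : φ (Additive.ofMul γ) = 0 := hφ γ hγ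
    show φ (Additive.ofMul γ) / (p : ℤ) = 0
    rw [h1, Int.zero_ediv]
  · refine AddMonoidHom.ext fun g => ?_
    rw [hz g]
    rfl

end div

section asm

variable {N q : ℕ} [hq : Fact q.Prime]

/-- reduction modulo `p` of a homomorphism `Γ0(N) → ℤ`, written multiplicatively -/
noncomputable def redHom (p : ℕ) (x : Additive ↥(Gamma0 N) →+ ℤ) :
    ↥(Gamma0 N) →* Multiplicative (ZMod p) where
  toFun g := Multiplicative.ofAdd ((x (Additive.ofMul g) : ℤ) : ZMod p)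
  map_one' := by
    rw [ofMul_one, map_zero, Int.cast_zero, ofAdd_zero]
  map_mul' g h := by
    rw [ofMul_mul, map_add, Int.cast_add, ofAdd_add]

omit hq in
theorem redHom_apply (p : ℕ) (x : Additive ↥(Gamma0 N) →+ ℤ) (g : ↥(Gamma0 N)) :
    redHom p x g = Multiplicative.ofAdd ((x (Additive.ofMul g) : ℤ) : ZMod p) := rfl

omit hq in
theorem redHom_eq_one_iff (p : ℕ) (x : Additive ↥(Gamma0 N) →+ ℤ) (g : ↥(Gamma0 N)) :
    redHom p x g = 1 ↔ ((x (Additive.ofMul g) : ℤ) : ZMod p) = 0 := by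
  rw [redHom_apply, ← ofAdd_zero, Multiplicative.ofAdd.injective.eq_iff]

omit hq in
theorem trace_uZ (m : ℤ) : ((uZ m : SL(2, ℤ)) : Matrix (Fin 2) (Fin 2) ℤ).trace ^ 2 = 4 := by
  rw [Matrix.trace_fin_two]
  show ((uZ m) 0 0 + (uZ m) 1 1) ^ 2 = 4
  simp [uZ]

omit hq in
theorem trace_lZ (m : ℤ) : ((lZ m : SL(2, ℤ)) : Matrix (Fin 2) (Fin 2) ℤ).trace ^ 2 = 4 := by
  rw [Matrix.trace_fin_two]
  show ((lZ m) 0 0 + (lZ m) 1 1) ^ 2 = 4
  simp [lZ]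

/-- **Kernel of `(res, res_δ)` modulo `p` is killed on `Γ1(N)`.** -/
theorem kills_Gamma1_of_csp (hqN : ¬ q ∣ N) (p : ℕ)
    (hcsp : CSPStmt N q (Multiplicative (ZMod p)))
    (x y : Additive ↥(Gamma0 N) →+ ℤ)
    (hx : x ∈ parabolicHoms ℤ (Gamma0 N) ℤ) (hy : y ∈ parabolicHoms ℤ (Gamma0 N) ℤ)
    (hxy : ∀ g : ↥(Gamma0 (N * q)), (p : ℤ) ∣
      x (Additive.ofMul (degenOne N q g)) + y (Additive.ofMul (degenDelta N q g)))
    (g : ↥(Gamma0 N)) (hg : ((((g : SL(2, ℤ)) 1 1 : ℤ)) : ZMod N) = 1) :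
    ((x (Additive.ofMul g) : ℤ) : ZMod p) = 0 ∧ ((y (Additive.ofMul g) : ℤ) : ZMod p) = 0 := by
  set a := redHom p x with ha
  set b := redHom p (-y) with hb
  have hab : ∀ g : ↥(Gamma0 (N * q)), a (degenOne N q g) = b (degenDelta N q g) := by
    intro g
    rw [ha, hb, redHom_apply, redHom_apply, AddMonoidHom.neg_apply, Int.cast_neg]
    congr 1
    have h1 := (ZMod.intCast_zmod_eq_zero_iff_dvd _ p).mpr (hxy g)
    rw [Int.cast_add] at h1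
    exact eq_neg_of_add_eq_zero_left h1
  have hpar : ∀ (w : Additive ↥(Gamma0 N) →+ ℤ), w ∈ parabolicHoms ℤ (Gamma0 N) ℤ →
      (∀ m : ℤ, redHom p w ⟨uZ m, uZ_mem_Gamma0 m⟩ = 1) ∧
      (∀ m : ℤ, redHom p w ⟨lZ ((N : ℤ) * m), lZ_mem_Gamma0 m⟩ = 1) := by
    intro w hw
    constructor
    · intro m
      rw [redHom_eq_one_iff, hw ⟨uZ m, uZ_mem_Gamma0 m⟩ (trace_uZ m), Int.cast_zero]
    · intro m
      rw [redHom_eq_one_iff, hw ⟨lZ ((N : ℤ) * m), lZ_mem_Gamma0 m⟩ (trace_lZ _), Int.cast_zero]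
  have hny : -y ∈ parabolicHoms ℤ (Gamma0 N) ℤ := neg_mem hy
  obtain ⟨Φ, h1, h2, hU, hL⟩ := exists_glue_int_elementary hqN a b hab
    (hpar x hx).1 (hpar x hx).2 (hpar (-y) hny).1 (hpar (-y) hny).2
  have hΦ := hcsp Φ hU hL
  -- `d(g) ≡ 1 mod N` in the `ℤ[1/q]` sense
  have hd : (castQ (g : SL(2, ℤ))) 1 1 - 1 ∈ NZq q N := by
    rw [mem_NZq_iff]
    refine ⟨0, (g : SL(2, ℤ)) 1 1 - 1, ?_, ?_⟩
    · rw [← ZMod.intCast_zmod_eq_zero_iff_dvd, Int.cast_sub, hg, Int.cast_one, sub_self]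
    · rw [castQ_apply]
      push_cast
      ring
  have hd' : (conjD q (castQ (g : SL(2, ℤ)))) 1 1 - 1 ∈ NZq q N := by
    rw [conjD_11]
    exact hd
  have e1 := hΦ ⟨castQ (g : SL(2, ℤ)), Gam_le_DeltaQ (castQ_mem_Gam g)⟩ hd
  have e2 := hΦ ⟨conjD q (castQ (g : SL(2, ℤ))), Gam'_le_DeltaQ (conjD_castQ_mem_Gam' g)⟩ hd'
  rw [h1 g] at e1
  rw [h2 g] at e2
  refine ⟨(redHom_eq_one_iff p x g).mp e1, ?_⟩
  have e3 := (redHom_eq_one_iff p (-y) g).mp e2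
  rw [AddMonoidHom.neg_apply, Int.cast_neg, neg_eq_zero] at e3
  exact e3

/-- **Ihara's lemma modulo `p`** (pointwise divisibility form): for every prime `ℓ ∤ N`,
`T_ℓ - (ℓ + 1)` kills the kernel of `(res, res_δ) mod p`. -/
theorem ihara_mod_p_of_csp (hqN : ¬ q ∣ N) (p : ℕ)
    (hcsp : CSPStmt N q (Multiplicative (ZMod p)))
    {ℓ : ℕ} [Fact ℓ.Prime] (hℓN : ¬ ℓ ∣ N)
    (x y : Additive ↥(Gamma0 N) →+ ℤ)
    (hx : x ∈ parabolicHoms ℤ (Gamma0 N) ℤ) (hy : y ∈ parabolicHoms ℤ (Gamma0 N) ℤ)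
    (hxy : ∀ g : ↥(Gamma0 (N * q)), (p : ℤ) ∣
      x (Additive.ofMul (degenOne N q g)) + y (Additive.ofMul (degenDelta N q g))) :
    (∀ g, (p : ℤ) ∣ (cohT hℓN ℤ x - (ℓ + 1) • x) g) ∧
    (∀ g, (p : ℤ) ∣ (cohT hℓN ℤ y - (ℓ + 1) • y) g) := by
  have key : ∀ w : Additive ↥(Gamma0 N) →+ ℤ,
      (∀ g : ↥(Gamma0 N), ((((g : SL(2, ℤ)) 1 1 : ℤ)) : ZMod N) = 1 →
        ((w (Additive.ofMul g) : ℤ) : ZMod p) = 0) →
      ∀ g, (p : ℤ) ∣ (cohT hℓN ℤ w - (ℓ + 1) • w) g := by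
    intro w hw g
    set f : ℤ →+ ZMod p := Int.castAddHom (ZMod p) with hf
    have h1 : cohT hℓN (ZMod p) (f.comp w) = (ℓ + 1) • (f.comp w) :=
      cohT_eq_smul_of_kills_Gamma1 hℓN (f.comp w) (fun g hg => hw g hg)
    rw [cohT_comp] at h1
    have h2 := DFunLike.congr_fun h1 g
    rw [← ZMod.intCast_zmod_eq_zero_iff_dvd]
    rw [AddMonoidHom.sub_apply, Int.cast_sub, sub_eq_zero]
    have h3 : (f.comp (cohT hℓN ℤ w)) g = ((cohT hℓN ℤ w g : ℤ) : ZMod p) := rfl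
    have h4 : ((ℓ + 1) • (f.comp w)) g = ((((ℓ + 1) • w) g : ℤ) : ZMod p) := by
      rw [AddMonoidHom.nsmul_apply, AddMonoidHom.nsmul_apply]
      show (ℓ + 1) • f (w g) = f ((ℓ + 1) • w g)
      rw [map_nsmul]
    rw [h3, h4] at h2
    exact h2
  exact ⟨key x fun g hg => (kills_Gamma1_of_csp hqN p hcsp x y hx hy hxy g hg).1,
    key y fun g hg => (kills_Gamma1_of_csp hqN p hcsp x y hx hy hxy g hg).2⟩

end asm

end Fermat.Agent.GM.Ihara
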